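/-
Programme AV (S26/S27), brick F0 (helper6): **transport of the function-field curve vocabulary
along compatible ring isomorphisms** `e : K ≃+* K'`, `φ : F ≃+* F'`,
`φ (algebraMap K F a) = algebraMap K' F' (e a)`.

File 1: places, `ord`, residue fields and degrees.
-/
import Mathlib
import Fermat.Prelude.Def_AlgebraicCurve_DivisorClassGroup

set_option autoImplicit false

open IsLocalRing

namespace Fermat.Agent.AV.F0_6.Place

open AlgebraicCurve

universe u v u' v'

/-- A compatible pair of ring isomorphisms between two field extensions. -/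
structure Compat (K : Type u) (F : Type v) (K' : Type u') (F' : Type v')
    [Field K] [Field F] [Algebra K F] [Field K'] [Field F'] [Algebra K' F'] where
  /-- the isomorphism of base fields -/
  e : K ≃+* K'
  /-- the isomorphism of the extensions -/
  φ : F ≃+* F'
  comm : ∀ a : K, φ (algebraMap K F a) = algebraMap K' F' (e a)

variable {K : Type u} {F : Type v} {K' : Type u'} {F' : Type v'}
  [Field K] [Field F] [Algebra K F] [Field K'] [Field F'] [Algebra K' F']

namespace Compat

variable (E : Compat K F K' F')

/-- The inverse compatible pair. -/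
def symm : Compat K' F' K F where
  e := E.e.symm
  φ := E.φ.symm
  comm a := by
    apply E.φ.injective
    rw [E.φ.apply_symm_apply, E.comm, E.e.apply_symm_apply]

@[simp] theorem symm_e : E.symm.e = E.e.symm := rfl
@[simp] theorem symm_φ : E.symm.φ = E.φ.symm := rfl

theorem comm_symm (a : K') : E.φ.symm (algebraMap K' F' a) = algebraMap K F (E.e.symm a) :=
  E.symm.comm a

/-- The image of a valuation subring. -/
def mapVS (A : ValuationSubring F) : ValuationSubring F' :=
  A.comap (E.φ.symm : F' →+* F)

theorem mem_mapVS {A : ValuationSubring F} {y : F'} : y ∈ E.mapVS A ↔ E.φ.symm y ∈ A := Iff.rfl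

theorem map_mem_mapVS {A : ValuationSubring F} {x : F} : E.φ x ∈ E.mapVS A ↔ x ∈ A := by
  rw [mem_mapVS, E.φ.symm_apply_apply]

theorem symm_mapVS_mapVS (A : ValuationSubring F) : E.symm.mapVS (E.mapVS A) = A := by
  ext x
  rw [mem_mapVS, mem_mapVS]
  simp

/-- The restriction of `φ` to a valuation subring and its image. -/
def vsEquiv (A : ValuationSubring F) : A ≃+* E.mapVS A where
  toFun x := ⟨E.φ x, E.map_mem_mapVS.2 x.2⟩
  invFun y := ⟨E.φ.symm y, y.2⟩
  left_inv x := by ext; simp
  right_inv y := by ext; simp
  map_mul' x y := by ext; simp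
  map_add' x y := by ext; simp

@[simp] theorem coe_vsEquiv (A : ValuationSubring F) (x : A) :
    ((E.vsEquiv A x : E.mapVS A) : F') = E.φ x := rfl

@[simp] theorem coe_vsEquiv_symm (A : ValuationSubring F) (y : E.mapVS A) :
    (((E.vsEquiv A).symm y : A) : F) = E.φ.symm y := rfl

/-- The image of a place. -/
def placeMap (v : Place K F) : Place K' F' where
  toValuationSubring := E.mapVS v.toValuationSubring
  algebraMap_mem' a := by
    rw [mem_mapVS, E.comm_symm]
    exact v.algebraMap_mem' _
  ne_top' h := v.ne_top' <| by
    rw [← E.symm_mapVS_mapVS v.toValuationSubring, h]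
    ext x
    simp [mem_mapVS]
  isPrincipalIdealRing' :=
    IsPrincipalIdealRing.of_surjective (E.vsEquiv v.toValuationSubring).toRingHom
      (E.vsEquiv v.toValuationSubring).surjective

@[simp] theorem placeMap_toValuationSubring (v : Place K F) :
    (E.placeMap v).toValuationSubring = E.mapVS v.toValuationSubring := rfl

theorem symm_placeMap_placeMap (v : Place K F) : E.symm.placeMap (E.placeMap v) = v :=
  Place.ext (E.symm_mapVS_mapVS _)

theorem placeMap_symm_placeMap (w : Place K' F') : E.placeMap (E.symm.placeMap w) = w :=
  E.symm.symm_placeMap_placeMap w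

/-- The bijection between the places. -/
def placeEquiv : Place K F ≃ Place K' F' where
  toFun := E.placeMap
  invFun := E.symm.placeMap
  left_inv := E.symm_placeMap_placeMap
  right_inv := E.placeMap_symm_placeMap

@[simp] theorem placeEquiv_apply (v : Place K F) : E.placeEquiv v = E.placeMap v := rfl
@[simp] theorem placeEquiv_symm_apply (w : Place K' F') :
    E.placeEquiv.symm w = E.symm.placeMap w := rfl

/-- The ring isomorphism between the valuation rings of `v` and of its image. -/
def placeRingEquiv (v : Place K F) :
    v.toValuationSubring ≃+* (E.placeMap v).toValuationSubring :=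
  E.vsEquiv v.toValuationSubring

@[simp] theorem coe_placeRingEquiv (v : Place K F) (x : v.toValuationSubring) :
    ((E.placeRingEquiv v x : (E.placeMap v).toValuationSubring) : F') = E.φ x := rfl

/-- `ord` is transported. -/
theorem ord_placeMap (v : Place K F) (f : F) : (E.placeMap v).ord (E.φ f) = v.ord f := by
  rcases eq_or_ne f 0 with rfl | hf
  · simp
  obtain ⟨π, hπ⟩ := IsDiscreteValuationRing.exists_irreducible v.toValuationSubring
  obtain ⟨u, hu⟩ := v.exists_unit_mul_zpow hf hπ
  set n := v.ord f with hn
  set r := E.placeRingEquiv v with hr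
  have hπ' : Irreducible (r π) := (MulEquiv.irreducible_iff r).mpr hπ
  have hu' : IsUnit (r (u : v.toValuationSubring)) := u.isUnit.map r
  have hcoeu : ((hu'.unit : (E.placeMap v).toValuationSubring) : F')
      = E.φ ((u : v.toValuationSubring) : F) := by
    rw [IsUnit.unit_spec]
    rfl
  have hcoeπ : ((r π : (E.placeMap v).toValuationSubring) : F') = E.φ (π : F) := rfl
  have key : E.φ f = ((hu'.unit : (E.placeMap v).toValuationSubring) : F')
      * (((r π : (E.placeMap v).toValuationSubring) : F') ^ n) := by
    rw [hcoeu, hcoeπ, hu, map_mul, map_zpow₀]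
  rw [key, (E.placeMap v).ord_unit_smul_zpow hu'.unit hπ' n]

theorem ord_placeMap' (v : Place K F) (f' : F') :
    (E.placeMap v).ord f' = v.ord (E.φ.symm f') := by
  rw [← E.ord_placeMap v (E.φ.symm f'), E.φ.apply_symm_apply]

/-- The isomorphism of residue fields. -/
noncomputable def residueEquiv (v : Place K F) : v.ResidueField ≃+* (E.placeMap v).ResidueField :=
  IsLocalRing.ResidueField.mapEquiv (E.placeRingEquiv v)

theorem residueEquiv_smul (v : Place K F) (a : K) (x : v.ResidueField) :
    E.residueEquiv v (a • x) = E.e a • E.residueEquiv v x := by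
  rw [Algebra.smul_def, Algebra.smul_def, map_mul]
  congr 1
  have h3 : (E.placeRingEquiv v) (algebraMap K v.toValuationSubring a)
      = algebraMap K' (E.placeMap v).toValuationSubring (E.e a) := by
    ext
    rw [coe_placeRingEquiv, Place.coe_algebraMap, Place.coe_algebraMap, E.comm]
  show IsLocalRing.ResidueField.mapEquiv _ (IsLocalRing.residue _ _) = IsLocalRing.residue _ _
  rw [IsLocalRing.ResidueField.mapEquiv_apply, IsLocalRing.ResidueField.map_residue]
  exact congrArg _ h3

/-- Degrees are transported. -/
theorem deg_placeMap (v : Place K F) : (E.placeMap v).deg = v.deg := by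
  have h := lift_rank_eq_of_equiv_equiv (R := K) (R' := K') (M := v.ResidueField)
    (M' := (E.placeMap v).ResidueField) E.e (E.residueEquiv v).toAddEquiv E.e.bijective
    (fun a x => E.residueEquiv_smul v a x)
  unfold Place.deg Module.finrank
  have h2 := congrArg Cardinal.toNat h
  rw [Cardinal.toNat_lift, Cardinal.toNat_lift] at h2
  exact h2.symm

/-- Finiteness of the residue fields is transported. -/
theorem finite_residue (v : Place K F) (h : Module.Finite K v.ResidueField) :
    Module.Finite K' (E.placeMap v).ResidueField := by
  classical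
  obtain ⟨s, hs⟩ := h.1
  refine ⟨⟨s.image (E.residueEquiv v), ?_⟩⟩
  rw [eq_top_iff]
  intro y _
  obtain ⟨x, rfl⟩ := (E.residueEquiv v).surjective y
  have hx : x ∈ Submodule.span K (s : Set v.ResidueField) := hs ▸ Submodule.mem_top
  refine Submodule.span_induction (p := fun x _ => E.residueEquiv v x ∈
    Submodule.span K' ((s.image (E.residueEquiv v) : Finset _) : Set _)) ?_ ?_ ?_ ?_ hx
  · intro z hz
    refine Submodule.subset_span ?_
    rw [Finset.coe_image]
    exact ⟨z, hz, rfl⟩
  · simp
  · intro a b _ _ ha hb
    rw [map_add]
    exact Submodule.add_mem _ ha hb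
  · intro a z _ hz
    rw [E.residueEquiv_smul]
    exact Submodule.smul_mem _ _ hz

end Compat

end Fermat.Agent.AV.F0_6.Place
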