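/-
Programme AV (S26/S27), brick F0 (helper6), file 2: divisors, principal divisors, `Pic⁰` and its
torsion are transported along a compatible pair of ring isomorphisms.
-/
import Mathlib
import Fermat.Agent.AV.F0_6.Place

set_option autoImplicit false

namespace Fermat.Agent.AV.F0_6.Pic

open AlgebraicCurve Fermat.Agent.AV.F0_6.Place

universe u v u' v'

variable {K : Type u} {F : Type v} {K' : Type u'} {F' : Type v'}
  [Field K] [Field F] [Algebra K F] [Field K'] [Field F'] [Algebra K' F']
  (E : Compat K F K' F')

/-- The isomorphism of divisor groups. -/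
noncomputable def divEquiv : Divisor K F ≃+ Divisor K' F' := Finsupp.domCongr E.placeEquiv

@[simp] theorem divEquiv_apply (D : Divisor K F) (w : Place K' F') :
    divEquiv E D w = D (E.symm.placeMap w) := by
  unfold divEquiv
  rw [Finsupp.domCongr_apply, Finsupp.equivMapDomain_apply]
  rfl

theorem divEquiv_apply_placeMap (D : Divisor K F) (v : Place K F) :
    divEquiv E D (E.placeMap v) = D v := by
  rw [divEquiv_apply, E.symm_placeMap_placeMap]

@[simp] theorem divEquiv_single (v : Place K F) (n : ℤ) :
    divEquiv E (Finsupp.single v n) = Finsupp.single (E.placeMap v) n := by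
  unfold divEquiv
  rw [Finsupp.domCongr_apply, Finsupp.equivMapDomain_single]
  rfl

theorem divEquiv_symm_eq : (divEquiv E).symm = divEquiv E.symm := by
  ext D v
  show (Finsupp.domCongr E.placeEquiv).symm D v = _
  rw [Finsupp.domCongr_symm, Finsupp.domCongr_apply, Finsupp.equivMapDomain_apply,
    divEquiv_apply]
  rfl

/-- Degrees are transported. -/
theorem degree_divEquiv (D : Divisor K F) : Divisor.degree (divEquiv E D) = Divisor.degree D := by
  induction D using Finsupp.induction with
  | zero => simp
  | single_add v n D _ _ ih =>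
      rw [map_add, map_add, map_add, ih, divEquiv_single, Divisor.degree_single,
        Divisor.degree_single, E.deg_placeMap]

theorem isPrincipal_divEquiv {D : Divisor K F} (h : Divisor.IsPrincipal D) :
    Divisor.IsPrincipal (divEquiv E D) := by
  obtain ⟨f, hf, hD⟩ := h
  refine ⟨E.φ f, by simpa using hf, fun w => ?_⟩
  rw [divEquiv_apply, hD, ← E.placeMap_symm_placeMap w, E.ord_placeMap, E.placeMap_symm_placeMap]

theorem isPrincipal_divEquiv_iff {D : Divisor K F} :
    Divisor.IsPrincipal (divEquiv E D) ↔ Divisor.IsPrincipal D := by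
  refine ⟨fun h => ?_, isPrincipal_divEquiv E⟩
  have h2 := isPrincipal_divEquiv E.symm h
  rwa [← divEquiv_symm_eq, AddEquiv.symm_apply_apply] at h2

include E in
/-- `HasPrincipalDivisors` is transported. -/
theorem hasPrincipalDivisors [h : HasPrincipalDivisors K F] : HasPrincipalDivisors K' F' := by
  refine ⟨fun f' hf' => ?_⟩
  obtain ⟨D, hD, hdeg⟩ := h.exists_divisor (E.φ.symm f') (by simpa using hf')
  refine ⟨divEquiv E D, fun w => ?_, by rw [degree_divEquiv, hdeg]⟩
  rw [divEquiv_apply, hD, ← E.placeMap_symm_placeMap w, E.ord_placeMap', E.placeMap_symm_placeMap]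

/-- The isomorphism of the groups of divisors of degree `0`. -/
noncomputable def degZeroEquiv :
    Divisor.degZero (K := K) (F := F) ≃+ Divisor.degZero (K := K') (F := F') where
  toFun D := ⟨divEquiv E D, by
    rw [Divisor.mem_degZero, degree_divEquiv]; exact D.2⟩
  invFun D := ⟨divEquiv E.symm D, by
    rw [Divisor.mem_degZero, degree_divEquiv]; exact D.2⟩
  left_inv D := by
    apply Subtype.ext
    show divEquiv E.symm (divEquiv E D) = D
    rw [← divEquiv_symm_eq, AddEquiv.symm_apply_apply]
  right_inv D := by
    apply Subtype.ext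
    show divEquiv E (divEquiv E.symm D) = D
    rw [← divEquiv_symm_eq, AddEquiv.apply_symm_apply]
  map_add' D D' := by
    apply Subtype.ext
    show divEquiv E (D + D' : Divisor K F) = divEquiv E D + divEquiv E D'
    rw [map_add]

@[simp] theorem coe_degZeroEquiv (D : Divisor.degZero (K := K) (F := F)) :
    ((degZeroEquiv E D : Divisor.degZero (K := K') (F := F')) : Divisor K' F') =
      divEquiv E D := rfl

theorem map_principal :
    AddSubgroup.map ((degZeroEquiv E : _ ≃+ _) : _ →+ _)
      ((Divisor.principal (K := K) (F := F)).addSubgroupOf (Divisor.degZero (K := K) (F := F))) =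
      (Divisor.principal (K := K') (F := F')).addSubgroupOf
        (Divisor.degZero (K := K') (F := F')) := by
  ext D
  rw [AddSubgroup.mem_map]
  constructor
  · rintro ⟨D₀, hD₀, rfl⟩
    rw [AddSubgroup.mem_addSubgroupOf] at hD₀ ⊢
    exact isPrincipal_divEquiv E hD₀
  · intro hD
    refine ⟨(degZeroEquiv E).symm D, ?_, AddEquiv.apply_symm_apply _ _⟩
    rw [AddSubgroup.mem_addSubgroupOf] at hD ⊢
    have : Divisor.IsPrincipal (divEquiv E (((degZeroEquiv E).symm D : Divisor.degZero) :
        Divisor K F)) := by
      have h := congrArg Subtype.val ((degZeroEquiv E).apply_symm_apply D)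
      rw [coe_degZeroEquiv] at h
      rw [h]
      exact hD
    exact (isPrincipal_divEquiv_iff E).1 this

/-- The isomorphism `Pic⁰(F/K) ≃+ Pic⁰(F'/K')`. -/
noncomputable def pic0Equiv : Pic0 K F ≃+ Pic0 K' F' :=
  QuotientAddGroup.congr _ _ (degZeroEquiv E) (map_principal E)

/-- The torsion subgroups correspond. -/
theorem mem_torsion_iff (n : ℕ) (x : Pic0 K F) :
    pic0Equiv E x ∈ Pic0.torsion K' F' n ↔ x ∈ Pic0.torsion K F n := by
  rw [Pic0.mem_torsion, Pic0.mem_torsion, ← map_zsmul, AddEquivClass.map_eq_zero_iff]

/-- The isomorphism of the torsion subgroups. -/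
noncomputable def torsionEquiv (n : ℕ) : Pic0.torsion K F n ≃ Pic0.torsion K' F' n where
  toFun x := ⟨pic0Equiv E x, (mem_torsion_iff E n x).2 x.2⟩
  invFun y := ⟨(pic0Equiv E).symm y, by
    rw [← mem_torsion_iff E n, AddEquiv.apply_symm_apply]; exact y.2⟩
  left_inv x := Subtype.ext ((pic0Equiv E).symm_apply_apply x)
  right_inv y := Subtype.ext ((pic0Equiv E).apply_symm_apply y)

include E in
/-- **The cardinalities of the torsion subgroups agree.** -/
theorem card_torsion_eq (n : ℕ) :
    Nat.card (Pic0.torsion K F n) = Nat.card (Pic0.torsion K' F' n) :=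
  Nat.card_congr (torsionEquiv E n)

end Fermat.Agent.AV.F0_6.Pic
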