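/-
Programme AV (S26/S27), brick F0 (helper6), file 4: the hypotheses of S27 (`IsCurveOver`,
`Algebra.EssFiniteType`, `IsAlgClosed`, `CharZero`) are transported along a compatible pair of ring
isomorphisms.
-/
import Mathlib
import Fermat.Prelude.Def_AlgebraicCurve_IsCurveOver
import Fermat.Agent.AV.F0_6.Pic

set_option autoImplicit false
set_option linter.style.haveILetI false

open KaehlerDifferential Cardinal

namespace Fermat.Agent.AV.F0_6.Curve

open AlgebraicCurve Fermat.Agent.AV.F0_6.Place Fermat.Agent.AV.F0_6.Pic

universe u v u' v'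

variable {K : Type u} {F : Type v} {K' : Type u'} {F' : Type v'}
  [Field K] [Field F] [Algebra K F] [Field K'] [Field F'] [Algebra K' F']
  (E : Compat K F K' F')

/-! ### Kähler differentials -/

include E in
/-- The rank of the Kähler differentials does not grow. -/
theorem lift_rank_kaehler_le :
    lift.{v} (Module.rank F' Ω[F'⁄K']) ≤ lift.{v'} (Module.rank F Ω[F⁄K]) := by
  letI : Algebra K K' := E.e.toRingHom.toAlgebra
  letI : Algebra F F' := E.φ.toRingHom.toAlgebra
  letI : Algebra K F' := ((E.φ.toRingHom).comp (algebraMap K F)).toAlgebra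
  haveI : IsScalarTower K F F' := IsScalarTower.of_algebraMap_eq fun _ => rfl
  haveI : IsScalarTower K K' F' := IsScalarTower.of_algebraMap_eq fun a => E.comm a
  haveI : SMulCommClass K' F F' := ⟨fun a c x => by
    simp only [Algebra.smul_def]
    exact mul_left_comm _ _ _⟩
  -- the `F`-linear surjection
  have hsurj : Function.Surjective (KaehlerDifferential.map K K' F F') :=
    KaehlerDifferential.map_surjective_of_surjective K K' F F' E.φ.surjective
  have h1 := LinearMap.lift_rank_le_of_surjective (KaehlerDifferential.map K K' F F') hsurj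
  -- compare the two module structures on `Ω[F'⁄K']`
  have h2 : lift.{v'} (Module.rank F Ω[F'⁄K']) = lift.{v'} (Module.rank F' Ω[F'⁄K']) :=
    lift_rank_eq_of_equiv_equiv (R := F) (R' := F') (M := Ω[F'⁄K']) (M' := Ω[F'⁄K'])
      E.φ (AddEquiv.refl _) E.φ.bijective (fun c y => by
        show c • y = E.φ c • y
        exact (algebraMap_smul F' c y).symm)
  rw [Cardinal.lift_id, Cardinal.lift_id] at h2
  rw [← h2]
  exact h1

include E in
theorem lift_rank_kaehler_eq :
    lift.{v} (Module.rank F' Ω[F'⁄K']) = lift.{v'} (Module.rank F Ω[F⁄K]) :=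
  le_antisymm (lift_rank_kaehler_le E) (lift_rank_kaehler_le E.symm)

include E in
theorem finrank_kaehler_eq : Module.finrank F' Ω[F'⁄K'] = Module.finrank F Ω[F⁄K] := by
  have h := congrArg Cardinal.toNat (lift_rank_kaehler_eq E)
  rwa [Cardinal.toNat_lift, Cardinal.toNat_lift] at h

/-! ### `IsCurveOver` -/

include E in
/-- **`IsCurveOver` is transported.** -/
theorem isCurveOver [h : IsCurveOver K F] : IsCurveOver K' F' where
  toHasPrincipalDivisors := haveI := h.toHasPrincipalDivisors; hasPrincipalDivisors E
  finiteResidue w := by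
    have := E.finite_residue (E.symm.placeMap w) (h.finiteResidue _)
    rwa [E.placeMap_symm_placeMap] at this
  kaehler_free_rank_one :=
    ⟨Module.Free.of_divisionRing F' Ω[F'⁄K'], by rw [finrank_kaehler_eq E]; exact h.kaehler_free_rank_one.2⟩

/-! ### Essential finiteness -/

include E in
/-- **`Algebra.EssFiniteType` is transported.** -/
theorem essFiniteType [h : Algebra.EssFiniteType K F] : Algebra.EssFiniteType K' F' := by
  letI : Algebra K K' := E.e.toRingHom.toAlgebra
  letI : Algebra K F' := ((E.φ.toRingHom).comp (algebraMap K F)).toAlgebra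
  haveI : IsScalarTower K K' F' := IsScalarTower.of_algebraMap_eq fun a => E.comm a
  let f : F →ₐ[K] F' := { E.φ.toRingHom with commutes' := fun _ => rfl }
  haveI : Algebra.EssFiniteType K F' := Algebra.EssFiniteType.of_surjective f E.φ.surjective
  exact Algebra.EssFiniteType.of_comp K K' F'

/-! ### The base field -/

include E in
/-- `IsAlgClosed` is transported (the two fields may live in different universes). -/
theorem isAlgClosed [IsAlgClosed K] : IsAlgClosed K' := by
  refine IsAlgClosed.of_exists_root K' fun p _ hirr => ?_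
  have hdeg : (p.map (E.e.symm : K' →+* K)).degree ≠ 0 := by
    rw [Polynomial.degree_map]
    exact Polynomial.degree_pos_of_irreducible hirr |>.ne'
  obtain ⟨y, hy⟩ := IsAlgClosed.exists_root (p.map (E.e.symm : K' →+* K)) hdeg
  refine ⟨E.e y, ?_⟩
  rw [Polynomial.IsRoot.def, Polynomial.eval_map] at hy
  have h := congrArg (E.e : K →+* K') hy
  rw [Polynomial.hom_eval₂, map_zero] at h
  have hcomp : ((E.e : K →+* K').comp (E.e.symm : K' →+* K)) = RingHom.id K' := by
    ext a
    simp
  rw [hcomp, Polynomial.eval₂_id] at h
  exact h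

include E in
/-- `CharZero` is transported. -/
theorem charZero [CharZero K] : CharZero K' :=
  charZero_of_injective_ringHom (f := (E.e : K →+* K')) E.e.injective

end Fermat.Agent.AV.F0_6.Curve
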