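/-
Programme AV (S26/S27), brick F0 (helper6), file 3: repartitions, `H¹(D)` and the genus `genusFF`
are transported along a compatible pair of ring isomorphisms.
-/
import Mathlib
import Fermat.Prelude.Def_AlgebraicCurve_Repartitions
import Fermat.Agent.AV.F0_6.Pic

set_option autoImplicit false

open WithZero

namespace Fermat.Agent.AV.F0_6.Genus

open AlgebraicCurve Fermat.Agent.AV.F0_6.Place Fermat.Agent.AV.F0_6.Pic

universe u v u' v'

variable {K : Type u} {F : Type v} {K' : Type u'} {F' : Type v'}
  [Field K] [Field F] [Algebra K F] [Field K'] [Field F'] [Algebra K' F']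
  (E : Compat K F K' F')

theorem symm_symm : E.symm.symm = E := rfl

/-- Transport of families indexed by the places. -/
def funMap : (Place K F → F) →+* (Place K' F' → F') where
  toFun α w := E.φ (α (E.symm.placeMap w))
  map_one' := by funext w; simp
  map_mul' α β := by funext w; simp
  map_zero' := by funext w; simp
  map_add' α β := by funext w; simp

@[simp] theorem funMap_apply (α : Place K F → F) (w : Place K' F') :
    funMap E α w = E.φ (α (E.symm.placeMap w)) := rfl

theorem funMap_apply_placeMap (α : Place K F → F) (v : Place K F) :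
    funMap E α (E.placeMap v) = E.φ (α v) := by
  rw [funMap_apply, E.symm_placeMap_placeMap]

theorem funMap_symm_funMap (α : Place K F → F) : funMap E.symm (funMap E α) = α := by
  funext v
  rw [funMap_apply, funMap_apply]
  show E.φ.symm (E.φ (α (E.symm.placeMap (E.placeMap v)))) = α v
  rw [E.φ.symm_apply_apply, E.symm_placeMap_placeMap]

theorem funMap_funMap_symm (β : Place K' F' → F') : funMap E (funMap E.symm β) = β :=
  funMap_symm_funMap E.symm β

theorem funMap_algebraMap (c : F) :
    funMap E (algebraMap F (Place K F → F) c) = algebraMap F' (Place K' F' → F') (E.φ c) := by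
  funext w
  simp [Pi.algebraMap_apply]

/-- The pole sets correspond. -/
theorem poles_funMap (α : Place K F → F) :
    {w : Place K' F' | ¬ w.adicValuation (funMap E α w) ≤ 1} =
      E.placeEquiv '' {v : Place K F | ¬ v.adicValuation (α v) ≤ 1} := by
  ext w
  simp only [Set.mem_ofPred_eq, Set.mem_image, Compat.placeEquiv_apply]
  constructor
  · intro hw
    refine ⟨E.symm.placeMap w, ?_, E.placeMap_symm_placeMap w⟩
    rw [Place.not_adicValuation_le_one_iff] at hw ⊢
    rwa [funMap_apply, ← E.placeMap_symm_placeMap w, E.ord_placeMap,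
      E.placeMap_symm_placeMap] at hw
  · rintro ⟨v, hv, rfl⟩
    rw [Place.not_adicValuation_le_one_iff] at hv ⊢
    rwa [funMap_apply_placeMap, E.ord_placeMap]

theorem funMap_mem_repartitions {α : Place K F → F} (hα : α ∈ repartitions K F) :
    funMap E α ∈ repartitions K' F' := by
  unfold repartitions at hα
  induction hα using Algebra.adjoin_induction with
  | mem x hx =>
      apply mem_repartitions_of_finite
      rw [poles_funMap]
      exact Set.Finite.image _ hx
  | algebraMap c =>
      rw [funMap_algebraMap]
      exact Subalgebra.algebraMap_mem _ _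
  | add x y _ _ hx hy =>
      rw [map_add]
      exact Subalgebra.add_mem _ hx hy
  | mul x y _ _ hx hy =>
      rw [map_mul]
      exact Subalgebra.mul_mem _ hx hy

theorem funMap_mem_repartitions_iff {α : Place K F → F} :
    funMap E α ∈ repartitions K' F' ↔ α ∈ repartitions K F := by
  refine ⟨fun h => ?_, funMap_mem_repartitions E⟩
  have := funMap_mem_repartitions E.symm h
  rwa [funMap_symm_funMap] at this

/-- The semilinear transport map on repartitions. -/
def repMap : ↥(repartitions K F) →ₛₗ[(E.e : K →+* K')] ↥(repartitions K' F') where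
  toFun α := ⟨funMap E α, funMap_mem_repartitions E α.2⟩
  map_add' α β := by
    apply Subtype.ext
    show funMap E ((α : Place K F → F) + β) = funMap E α + funMap E β
    rw [map_add]
  map_smul' a α := by
    apply Subtype.ext
    show funMap E (a • (α : Place K F → F)) = (E.e a) • funMap E α
    funext w
    rw [funMap_apply, Pi.smul_apply, Pi.smul_apply, Algebra.smul_def, Algebra.smul_def, map_mul,
      E.comm, funMap_apply]

@[simp] theorem coe_repMap (α : ↥(repartitions K F)) :
    ((repMap E α : ↥(repartitions K' F')) : Place K' F' → F') = funMap E α := rfl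

theorem repMap_symm_repMap (α : ↥(repartitions K F)) : repMap E.symm (repMap E α) = α :=
  Subtype.ext (funMap_symm_funMap E α)

theorem repMap_repMap_symm (β : ↥(repartitions K' F')) : repMap E (repMap E.symm β) = β :=
  Subtype.ext (funMap_funMap_symm E β)

theorem repMap_mem_repartitionsOf {D : Divisor K F} {α : ↥(repartitions K F)}
    (hα : α ∈ repartitionsOf D) : repMap E α ∈ repartitionsOf (divEquiv E D) := by
  rw [mem_repartitionsOf_iff] at hα ⊢
  intro w
  rw [coe_repMap, funMap_apply, divEquiv_apply]
  rcases hα (E.symm.placeMap w) with h | h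
  · left
    rw [h, map_zero]
  · right
    rwa [← E.placeMap_symm_placeMap w, E.ord_placeMap, E.placeMap_symm_placeMap]

theorem repMap_mem_principal {α : ↥(repartitions K F)}
    (hα : α ∈ principalRepartitions K F) : repMap E α ∈ principalRepartitions K' F' := by
  rw [mem_principalRepartitions_iff] at hα ⊢
  obtain ⟨f, hf⟩ := hα
  refine ⟨E.φ f, ?_⟩
  funext w
  rw [coe_repMap, funMap_apply, hf]

theorem divEquiv_symm_divEquiv (D : Divisor K F) : divEquiv E.symm (divEquiv E D) = D := by
  rw [← divEquiv_symm_eq, AddEquiv.symm_apply_apply]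

theorem repMap_mem_sup {D : Divisor K F} {α : ↥(repartitions K F)}
    (hα : α ∈ repartitionsOf D ⊔ principalRepartitions K F) :
    repMap E α ∈ repartitionsOf (divEquiv E D) ⊔ principalRepartitions K' F' := by
  rw [Submodule.mem_sup] at hα ⊢
  obtain ⟨a, ha, b, hb, rfl⟩ := hα
  exact ⟨_, repMap_mem_repartitionsOf E ha, _, repMap_mem_principal E hb, (map_add _ _ _).symm⟩

theorem repMap_mem_sup_iff {D : Divisor K F} {α : ↥(repartitions K F)} :
    repMap E α ∈ repartitionsOf (divEquiv E D) ⊔ principalRepartitions K' F' ↔
      α ∈ repartitionsOf D ⊔ principalRepartitions K F := by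
  refine ⟨fun h => ?_, repMap_mem_sup E⟩
  have := repMap_mem_sup E.symm h
  rwa [repMap_symm_repMap, divEquiv_symm_divEquiv] at this

/-- The semilinear map `H¹(D) → H¹(D')`. -/
noncomputable def h1Map (D : Divisor K F) : H1 D →ₛₗ[(E.e : K →+* K')] H1 (divEquiv E D) :=
  Submodule.mapQ _ _ (repMap E) (fun _ hα => repMap_mem_sup E hα)

theorem h1Map_mk (D : Divisor K F) (α : ↥(repartitions K F)) :
    h1Map E D (Submodule.Quotient.mk α) = Submodule.Quotient.mk (repMap E α) := rfl

theorem h1Map_bijective (D : Divisor K F) : Function.Bijective (h1Map E D) := by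
  constructor
  · rw [injective_iff_map_eq_zero]
    intro x hx
    obtain ⟨α, rfl⟩ := Submodule.Quotient.mk_surjective _ x
    rw [h1Map_mk, Submodule.Quotient.mk_eq_zero] at hx
    rw [Submodule.Quotient.mk_eq_zero]
    exact (repMap_mem_sup_iff E).1 hx
  · intro y
    obtain ⟨β, rfl⟩ := Submodule.Quotient.mk_surjective _ y
    exact ⟨Submodule.Quotient.mk (repMap E.symm β), by rw [h1Map_mk, repMap_repMap_symm]⟩

/-- `dim H¹(D)` is transported. -/
theorem finrank_H1_eq (D : Divisor K F) :
    Module.finrank K (H1 D) = Module.finrank K' (H1 (divEquiv E D)) := by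
  have h := lift_rank_eq_of_equiv_equiv (R := K) (R' := K') (M := H1 D)
    (M' := H1 (divEquiv E D)) E.e
    (AddEquiv.ofBijective (h1Map E D).toAddMonoidHom (h1Map_bijective E D)) E.e.bijective
    (fun a x => (h1Map E D).map_smulₛₗ a x)
  unfold Module.finrank
  have h2 := congrArg Cardinal.toNat h
  rwa [Cardinal.toNat_lift, Cardinal.toNat_lift] at h2

include E in
/-- **The genus is transported.** -/
theorem genusFF_eq : genusFF K F = genusFF K' F' := by
  unfold genusFF
  rw [finrank_H1_eq E 0, map_zero]

end Fermat.Agent.AV.F0_6.Genus
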