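/-
Programme AV (S26/S27), brick F0 (helper6), file 5: **reduction of S27 to ONE universe.**

The frozen statement S27 has `K : Type u`, `F : Type v` in two different universes, whereas the
scheme-theoretic machinery (S25/S26) needs the base field and the function field in one universe.
`s27_of_one_universe` reduces S27 to its instance with `K F : Type (max u v)` (apply the
one-universe theorem to `ULift K`, `ULift F`), and `s27_transfer` is the general transport of the
statement along a compatible pair of ring isomorphisms.
-/
import Mathlib
import Fermat.Prelude.Def_AlgebraicCurve_DivisorClassGroup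
import Fermat.Prelude.Def_AlgebraicCurve_IsCurveOver
import Fermat.Prelude.Def_AlgebraicCurve_Repartitions
import Fermat.Agent.AV.F0_6.Genus
import Fermat.Agent.AV.F0_6.Curve

set_option autoImplicit false
set_option linter.style.haveILetI false

namespace Fermat.Agent.AV.F0_6.Main

open AlgebraicCurve Fermat.Agent.AV.F0_6.Place Fermat.Agent.AV.F0_6.Pic
  Fermat.Agent.AV.F0_6.Genus Fermat.Agent.AV.F0_6.Curve

universe u v u' v' w

/-- **General transport of the statement of S27**: if `(K, F)` and `(K', F')` are related by a
compatible pair of ring isomorphisms, the count of `n`-torsion and the genus agree; so the statement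
of S27 for `(K', F')` implies it for `(K, F)`. -/
theorem s27_transfer {K : Type u} {F : Type v} {K' : Type u'} {F' : Type v'}
    [Field K] [Field F] [Algebra K F] [Field K'] [Field F'] [Algebra K' F']
    (E : Compat K F K' F') (n g : ℕ → ℕ)
    (h : ∀ k, Nat.card (Pic0.torsion K' F' (n k)) = g (genusFF K' F')) (k : ℕ) :
    Nat.card (Pic0.torsion K F (n k)) = g (genusFF K F) := by
  rw [card_torsion_eq E, genusFF_eq E]
  exact h k

section Lift

variable (K : Type u) (F : Type v) [Field K] [Field F] [Algebra K F]

/-- The algebra structure on the universe lifts. -/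
@[reducible] def liftAlgebra : Algebra (ULift.{w} K) (ULift.{w} F) :=
  (((ULift.ringEquiv.symm : F ≃+* ULift.{w} F) : F →+* ULift.{w} F).comp
    ((algebraMap K F).comp ((ULift.ringEquiv : ULift.{w} K ≃+* K) : ULift.{w} K →+* K))).toAlgebra

/-- The compatible pair `(K, F) ≃ (ULift K, ULift F)`. -/
def liftCompat :
    @Compat K F (ULift.{w} K) (ULift.{w} F) _ _ _ _ _ (liftAlgebra.{u, v, w} K F) :=
  letI := liftAlgebra.{u, v, w} K F
  { e := ULift.ringEquiv.symm
    φ := ULift.ringEquiv.symm
    comm := fun _ => rfl }

end Lift

/-- **Reduction of S27 to one universe.**  If the statement of S27 holds whenever the base field and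
the function field live in the same universe `max u v`, it holds for `K : Type u`, `F : Type v`. -/
theorem s27_of_one_universe
    (H : ∀ (K F : Type (max u v)) [Field K] [Field F] [Algebra K F] [IsAlgClosed K] [CharZero K]
      [IsCurveOver K F] [Algebra.EssFiniteType K F] (ℓ : ℕ) [Fact ℓ.Prime] (k : ℕ),
      Nat.card (Pic0.torsion K F (ℓ ^ k)) = ℓ ^ (2 * genusFF K F * k))
    (K : Type u) (F : Type v) [Field K] [Field F] [Algebra K F] [IsAlgClosed K] [CharZero K]
    [IsCurveOver K F] [Algebra.EssFiniteType K F] (ℓ : ℕ) [Fact ℓ.Prime] (k : ℕ) :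
    Nat.card (Pic0.torsion K F (ℓ ^ k)) = ℓ ^ (2 * genusFF K F * k) := by
  letI : Algebra (ULift.{max u v} K) (ULift.{max u v} F) := liftAlgebra.{u, v, max u v} K F
  let E : Compat K F (ULift.{max u v} K) (ULift.{max u v} F) := liftCompat.{u, v, max u v} K F
  haveI : IsAlgClosed (ULift.{max u v} K) := isAlgClosed E
  haveI : CharZero (ULift.{max u v} K) := charZero E
  haveI : IsCurveOver (ULift.{max u v} K) (ULift.{max u v} F) := isCurveOver E
  haveI : Algebra.EssFiniteType (ULift.{max u v} K) (ULift.{max u v} F) := essFiniteType E
  rw [card_torsion_eq E, genusFF_eq E]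
  exact H (ULift.{max u v} K) (ULift.{max u v} F) ℓ k

end Fermat.Agent.AV.F0_6.Main
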